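import Fermat.Agent.HeckeHom.ThetaFull

set_option autoImplicit false
set_option linter.unusedSectionVars false

/-!
Bases of parabolic homomorphisms defined over `ℤ` (same as `TorsCmp/Surj`, with light imports).
-/

noncomputable section

open CongruenceSubgroup
open scoped MatrixGroups

namespace Fermat.Agent.ZRank

open Fermat.Agent.HeckeHom
open ModularCurve.Period

variable (N : ℕ) [NeZero N] (R : Type*) [CommRing R]

/-- extension of scalars for homomorphisms -/
def castHom (φ : parabolicHoms ℤ (Gamma0 N) ℤ) : parabolicHoms R (Gamma0 N) R :=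
  ⟨(Int.castAddHom R).comp (φ : Additive (Gamma0 N) →+ ℤ), fun γ hγ => by
    rw [AddMonoidHom.comp_apply, φ.2 γ hγ, map_zero]⟩

theorem castHom_apply (φ : parabolicHoms ℤ (Gamma0 N) ℤ) (g : Additive (Gamma0 N)) :
    (castHom N R φ : Additive (Gamma0 N) →+ R) g = (((φ : Additive (Gamma0 N) →+ ℤ) g : ℤ) : R) :=
  rfl

variable [CharZero R] [IsAddTorsionFree R]

theorem linearIndependent_castHom {ι : Type*} [Fintype ι]
    {b : ι → parabolicHoms ℤ (Gamma0 N) ℤ} (hb : LinearIndependent ℤ b) :
    LinearIndependent R fun i => castHom N R (b i) := by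
  classical
  rw [Fintype.linearIndependent_iff]
  intro r hr
  let V : Submodule ℤ R := Submodule.span ℤ (Set.range r)
  have hV1 : Module.Finite ℤ V := Module.Finite.span_of_finite ℤ (Set.finite_range r)
  have hV2 : Module.Free ℤ V := inferInstance
  let s := Module.finBasis ℤ V
  have ha : ∀ i, r i ∈ V := fun i => Submodule.subset_span ⟨i, rfl⟩
  have h1 : ∀ i, r i = ∑ k, s.repr ⟨r i, ha i⟩ k • (s k : R) := by
    intro i
    have h := congrArg Subtype.val (s.sum_repr ⟨r i, ha i⟩)
    rw [AddSubmonoidClass.coe_finsetSum] at h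
    exact h.symm
  have hs : LinearIndependent ℤ fun k => (s k : R) :=
    s.linearIndependent.map' V.subtype (Submodule.ker_subtype V)
  have h2 : ∀ g : Additive (Gamma0 N), ∀ k,
      ∑ i, s.repr ⟨r i, ha i⟩ k * (b i : Additive (Gamma0 N) →+ ℤ) g = 0 := by
    intro g
    have h3 := DFunLike.congr_fun (congrArg Subtype.val hr) g
    rw [AddSubmonoidClass.coe_finsetSum, AddMonoidHom.finsetSum_apply] at h3
    have h4 : ∑ k, (∑ i, s.repr ⟨r i, ha i⟩ k * (b i : Additive (Gamma0 N) →+ ℤ) g) • (s k : R) = 0 := by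
      rw [← show _ = (0 : R) from h3]
      simp_rw [Finset.sum_smul]
      rw [Finset.sum_comm]
      refine Finset.sum_congr rfl fun i _ => ?_
      change _ = r i * ((((b i : Additive (Gamma0 N) →+ ℤ) g : ℤ) : R))
      conv_rhs => rw [h1 i]
      rw [Finset.sum_mul]
      refine Finset.sum_congr rfl fun k _ => ?_
      rw [mul_smul, zsmul_eq_mul, zsmul_eq_mul, zsmul_eq_mul]
      ring
    exact Fintype.linearIndependent_iff.mp hs _ h4
  intro i
  have h5 : ∀ k, s.repr ⟨r i, ha i⟩ k = 0 := by
    intro k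
    refine Fintype.linearIndependent_iff.mp hb (fun i => s.repr ⟨r i, ha i⟩ k) ?_ i
    refine Subtype.ext (AddMonoidHom.ext fun g => ?_)
    rw [AddSubmonoidClass.coe_finsetSum, AddMonoidHom.finsetSum_apply]
    exact h2 g k
  rw [h1 i]
  exact Finset.sum_eq_zero fun k _ => by rw [h5 k, zero_smul]

theorem span_castHom {ι : Type*} {b : ι → parabolicHoms ℤ (Gamma0 N) ℤ}
    (hb : Submodule.span ℤ (Set.range b) = ⊤) :
    Submodule.span R (Set.range fun i => castHom N R (b i)) = ⊤ := by
  rw [eq_top_iff]
  rintro ψ -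
  obtain ⟨n, a, φ, h0, h1⟩ := exists_decomp (ψ : Additive (Gamma0 N) →+ R)
  have hφ : ∀ i, φ i ∈ parabolicHoms ℤ (Gamma0 N) ℤ := fun i γ hγ => h0 _ (ψ.2 γ hγ) i
  have h2 : ψ = ∑ i, a i • castHom N R ⟨φ i, hφ i⟩ := by
    refine Subtype.ext (AddMonoidHom.ext fun g => ?_)
    rw [h1 g, AddSubmonoidClass.coe_finsetSum, AddMonoidHom.finsetSum_apply]
    refine Finset.sum_congr rfl fun i _ => ?_
    change _ = a i * ((φ i g : ℤ) : R)
    rw [zsmul_eq_mul, mul_comm]
  rw [h2]
  refine Submodule.sum_mem _ fun i _ => Submodule.smul_mem _ _ ?_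
  have h3 : ∀ φ : parabolicHoms ℤ (Gamma0 N) ℤ, φ ∈ Submodule.span ℤ (Set.range b) →
      castHom N R φ ∈ Submodule.span R (Set.range fun i => castHom N R (b i)) := by
    intro φ hφ
    induction hφ using Submodule.span_induction with
    | mem x hx =>
      obtain ⟨i, rfl⟩ := hx
      exact Submodule.subset_span ⟨i, rfl⟩
    | zero =>
      have : castHom N R 0 = 0 := Subtype.ext (AddMonoidHom.ext fun g => by
        rw [castHom_apply]; exact Int.cast_zero)
      rw [this]
      exact Submodule.zero_mem _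
    | add x y _ _ hx hy =>
      have : castHom N R (x + y) = castHom N R x + castHom N R y :=
        Subtype.ext (AddMonoidHom.ext fun g => by
          rw [castHom_apply]
          exact Int.cast_add _ _)
      rw [this]
      exact Submodule.add_mem _ hx hy
    | smul c x _ hx =>
      have : castHom N R (c • x) = (c : R) • castHom N R x :=
        Subtype.ext (AddMonoidHom.ext fun g => by
          rw [castHom_apply]
          change (((c • ((x : Additive (Gamma0 N) →+ ℤ) g) : ℤ)) : R) =
            (c : R) * (((x : Additive (Gamma0 N) →+ ℤ) g : ℤ) : R)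
          rw [smul_eq_mul, Int.cast_mul])
      rw [this]
      exact Submodule.smul_mem _ _ hx
  exact h3 _ (by rw [hb]; exact Submodule.mem_top)

/-- a basis of the parabolic homomorphisms defined over `ℤ` -/
def parBasis : Module.Basis (Fin (Module.finrank ℤ (parabolicHoms ℤ (Gamma0 N) ℤ))) R
    (parabolicHoms R (Gamma0 N) R) :=
  Module.Basis.mk (linearIndependent_castHom N R (Module.finBasis ℤ _).linearIndependent)
    (span_castHom N R (Module.finBasis ℤ (parabolicHoms ℤ (Gamma0 N) ℤ)).span_eq).ge

theorem finrank_parabolicHoms [Nontrivial R] : Module.finrank R (parabolicHoms R (Gamma0 N) R) =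
    Module.finrank ℤ (parabolicHoms ℤ (Gamma0 N) ℤ) := by
  rw [Module.finrank_eq_card_basis (parBasis N R), Fintype.card_fin]


end Fermat.Agent.ZRank
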