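import Fermat.Agent.ZRank.Generic
import Fermat.Agent.ZRank.Basis
import Fermat.Agent.DS.Normalize

set_option autoImplicit false
set_option linter.unusedSectionVars false

/-!
Rank bound: a Hecke stable submodule of `parabolicHoms R (Gamma0 M) R` has rank at most twice the
rank of the Hecke algebra acting on it.
-/

noncomputable section

open CongruenceSubgroup ModularFormClass CuspForm Matrix
open scoped MatrixGroups

namespace Fermat.Agent.ZRank

open Fermat.Agent.HeckeHom
open ModularCurve.Period
open Fermat.Agent.DS (coeffL coeffL_apply)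

variable (M : ℕ) [NeZero M]

/-- `q`-expansion principle -/
theorem eq_zero_of_hecke (f : CuspForm (Gamma0 M) 2)
    (h : ∀ t : heckeAlgebra M 2 (∅ : Set ℕ), qCoeff (t.1 f) 1 = 0) : f = 0 := by
  classical
  have key : ∀ n : ℕ, 1 ≤ n → ∀ t : heckeAlgebra M 2 (∅ : Set ℕ), qCoeff (t.1 f) n = 0 := by
    intro n
    induction n using Nat.strong_induction_on with
    | _ n ih =>
      intro hn t
      rcases Nat.eq_or_lt_of_le hn with rfl | hn1
      · exact h t
      · obtain ⟨p, hp, hpn⟩ := Nat.exists_prime_and_dvd (show n ≠ 1 by omega)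
        obtain ⟨m, rfl⟩ := hpn
        have hm : 1 ≤ m := by
          rcases Nat.eq_zero_or_pos m with rfl | h
          · omega
          · exact h
        have hmlt : m < p * m := by
          have := hp.two_le
          nlinarith
        by_cases hpN : p ∣ M
        · have h1 := Fermat.Agent.DS.qCoeff_heckeULin hp hpN (t.1 f) m
          have h2 := ih m hmlt hm (heckeAlgebra.U hp hpN (Set.notMem_empty p) * t)
          change qCoeff (heckeULin 2 hpN (t.1 f)) m = 0 at h2
          rw [h2] at h1
          rw [mul_comm p m]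
          exact h1.symm
        · have h1 := Fermat.Agent.DS.qCoeff_heckeTLin hp hpN (t.1 f) m
          have h2 := ih m hmlt hm (heckeAlgebra.T hp hpN (Set.notMem_empty p) * t)
          change qCoeff (heckeTLin 2 hp hpN (t.1 f)) m = 0 at h2
          rw [h2] at h1
          rw [mul_comm p m]
          by_cases hpm : p ∣ m
          · rw [if_pos hpm] at h1
            have h3 : qCoeff (t.1 f) (m / p) = 0 :=
              ih (m / p) (lt_of_le_of_lt (Nat.div_le_self m p) hmlt)
                (Nat.div_pos (Nat.le_of_dvd (by omega) hpm) hp.pos) t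
            rw [h3, mul_zero, add_zero] at h1
            exact h1.symm
          · rw [if_neg hpm, add_zero] at h1
            exact h1.symm
  apply Fermat.Agent.DS.eq_zero_of_coeffs
  intro n hn
  exact key n hn 1

section

variable (hES : ES M)

/-- Eichler–Shimura as a linear equivalence -/
def esEquiv : (CuspForm (Gamma0 M) 2 × CuspForm (Gamma0 M) 2) ≃ₗ[ℂ] parabolicHoms ℂ (Gamma0 M) ℂ :=
  (LinearEquiv.ofInjective (ModularCurve.periodHomPair M) hES.1).trans
    (LinearEquiv.ofEq _ _ hES.2)

theorem coe_esEquiv (x : CuspForm (Gamma0 M) 2 × CuspForm (Gamma0 M) 2) :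
    (esEquiv M hES x : Additive (Gamma0 M) →+ ℂ) = ModularCurve.periodHomPair M x := rfl

theorem act_esEquiv (x : FreeAlgebra ℤ (IdxF M (∅ : Set ℕ)))
    (f g : CuspForm (Gamma0 M) 2) :
    actParG (gens M ∅) ℂ ℂ x (esEquiv M hES (f, g)) =
      esEquiv M hES (actCuspG (gens M ∅) x f, actCuspG (gens M ∅) x g) := by
  apply Subtype.ext
  rw [coe_esEquiv]
  exact periodHomPair_actCuspG (gens M ∅) x f g _ rfl

/-- the two functionals over `ℂ` -/
def lamC (i : Fin 2) : parabolicHoms ℂ (Gamma0 M) ℂ →ₗ[ℂ] ℂ :=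
  ((coeffL M 2 1).comp (if i = 0 then LinearMap.fst ℂ _ _ else LinearMap.snd ℂ _ _)).comp
    (esEquiv M hES).symm.toLinearMap

theorem lamC_separate (v : parabolicHoms ℂ (Gamma0 M) ℂ)
    (h : ∀ (i : Fin 2) (x : FreeAlgebra ℤ (IdxF M (∅ : Set ℕ))),
      lamC M hES i (actParG (gens M ∅) ℂ ℂ x v) = 0) : v = 0 := by
  obtain ⟨⟨f, g⟩, rfl⟩ := (esEquiv M hES).surjective v
  have hx : ∀ x, lamC M hES 0 (actParG (gens M ∅) ℂ ℂ x (esEquiv M hES (f, g))) =
      qCoeff (actCuspG (gens M ∅) x f) 1 ∧
      lamC M hES 1 (actParG (gens M ∅) ℂ ℂ x (esEquiv M hES (f, g))) =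
      qCoeff (actCuspG (gens M ∅) x g) 1 := by
    intro x
    rw [act_esEquiv]
    constructor
    · simp only [lamC, LinearMap.comp_apply, LinearEquiv.coe_coe, LinearEquiv.symm_apply_apply,
        if_pos, LinearMap.fst_apply, coeffL_apply]
    · simp only [lamC, LinearMap.comp_apply, LinearEquiv.coe_coe, LinearEquiv.symm_apply_apply,
        one_ne_zero, if_neg, not_false_eq_true, LinearMap.snd_apply, coeffL_apply]
  have hf : f = 0 := by
    apply eq_zero_of_hecke M
    intro t
    obtain ⟨x, rfl⟩ := toHeckeF_surjective t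
    rw [← h 0 x]
    exact (hx x).1.symm
  have hg : g = 0 := by
    apply eq_zero_of_hecke M
    intro t
    obtain ⟨x, rfl⟩ := toHeckeF_surjective t
    rw [← h 1 x]
    exact (hx x).2.symm
  rw [hf, hg]
  exact map_zero _

end

/-- the rank of the lattice -/
abbrev rk : ℕ := Module.finrank ℤ (parabolicHoms ℤ (Gamma0 M) ℤ)

/-- the integral matrix of a Hecke operator -/
def matZ (x : FreeAlgebra ℤ (IdxF M (∅ : Set ℕ))) : Matrix (Fin (rk M)) (Fin (rk M)) ℤ :=
  LinearMap.toMatrix (Module.finBasis ℤ (parabolicHoms ℤ (Gamma0 M) ℤ))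
    (Module.finBasis ℤ (parabolicHoms ℤ (Gamma0 M) ℤ)) (actParG (gens M ∅) ℤ ℤ x)

section

variable (R : Type*) [CommRing R] [CharZero R] [IsAddTorsionFree R]

theorem parBasis_apply (j : Fin (rk M)) : parBasis M R j = castHom M R (Module.finBasis ℤ _ j) := by
  rw [parBasis, Module.Basis.mk_apply]

theorem act_parBasis (x : FreeAlgebra ℤ (IdxF M (∅ : Set ℕ))) (j : Fin (rk M)) :
    actParG (gens M ∅) R R x (parBasis M R j) = ∑ i, (matZ M x i j : R) • parBasis M R i := by
  apply Subtype.ext
  have h1 := actParG_natural (gens M ∅) (R := ℤ) (R' := R) (Int.castAddHom R) x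
    (Module.finBasis ℤ (parabolicHoms ℤ (Gamma0 M) ℤ) j) (parBasis M R j) (by
      rw [parBasis_apply]; rfl)
  rw [h1]
  have h2 : actParG (gens M ∅) ℤ ℤ x (Module.finBasis ℤ (parabolicHoms ℤ (Gamma0 M) ℤ) j) =
      ∑ i, matZ M x i j • Module.finBasis ℤ (parabolicHoms ℤ (Gamma0 M) ℤ) i := by
    have h3 := (Module.finBasis ℤ (parabolicHoms ℤ (Gamma0 M) ℤ)).sum_repr
      (actParG (gens M ∅) ℤ ℤ x (Module.finBasis ℤ (parabolicHoms ℤ (Gamma0 M) ℤ) j))
    rw [← h3]
    refine Finset.sum_congr rfl fun i _ => ?_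
    rw [matZ, LinearMap.toMatrix_apply]
  rw [h2]
  refine AddMonoidHom.ext fun g => ?_
  rw [AddMonoidHom.comp_apply, AddSubmonoidClass.coe_finsetSum, AddMonoidHom.finsetSum_apply,
    AddSubmonoidClass.coe_finsetSum, AddMonoidHom.finsetSum_apply, map_sum]
  refine Finset.sum_congr rfl fun i _ => ?_
  rw [parBasis_apply]
  change (((matZ M x i j * (Module.finBasis ℤ (parabolicHoms ℤ (Gamma0 M) ℤ) i :
    Additive (Gamma0 M) →+ ℤ) g : ℤ)) : R) = (matZ M x i j : R) *
      (((Module.finBasis ℤ (parabolicHoms ℤ (Gamma0 M) ℤ) i : Additive (Gamma0 M) →+ ℤ) g : ℤ) : R)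
  push_cast
  rfl

/-- coordinates of the action -/
theorem repr_act (x : FreeAlgebra ℤ (IdxF M (∅ : Set ℕ))) (v : parabolicHoms R (Gamma0 M) R) :
    (fun i => (parBasis M R).repr (actParG (gens M ∅) R R x v) i) =
      ((matZ M x).map (Int.cast : ℤ → R)) *ᵥ (fun j => (parBasis M R).repr v j) := by
  funext i
  conv_lhs => rw [← (parBasis M R).sum_repr v]
  rw [map_sum, map_sum, Finsupp.coe_finsetSum, Finset.sum_apply, Matrix.mulVec, dotProduct]
  refine Finset.sum_congr rfl fun j _ => ?_
  rw [map_smul, map_smul, Finsupp.smul_apply, act_parBasis, map_sum, Finsupp.coe_finsetSum,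
    Finset.sum_apply]
  simp only [map_smul, Finsupp.smul_apply, Module.Basis.repr_self, Finsupp.single_apply,
    smul_eq_mul, mul_ite, mul_one, mul_zero, Finset.sum_ite_eq', Finset.mem_univ, if_true,
    Matrix.map_apply]
  rw [mul_comm]

end

/-- **Two integral functionals separate.** -/
theorem exists_functionals (hES : ES M) : ∃ mu : Fin 2 → Fin (rk M) → ℤ,
    ∀ (R : Type) [CommRing R] [IsDomain R] [CharZero R] [IsAddTorsionFree R]
      (v : parabolicHoms R (Gamma0 M) R),
      (∀ (i : Fin 2) (x : FreeAlgebra ℤ (IdxF M (∅ : Set ℕ))),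
        ∑ j, (mu i j : R) * (parBasis M R).repr (actParG (gens M ∅) R R x v) j = 0) → v = 0 := by
  obtain ⟨mu, hmu⟩ := exists_int_functionals (matZ M)
    (fun i j => lamC M hES i (parBasis M ℂ j)) (fun v hv => by
      set w : parabolicHoms ℂ (Gamma0 M) ℂ := ∑ j, v j • parBasis M ℂ j with hw
      have hrepr : (fun j => (parBasis M ℂ).repr w j) = v := by
        funext j
        rw [hw, map_sum, Finsupp.coe_finsetSum, Finset.sum_apply]
        simp [Finsupp.single_apply]
      have hw0 : w = 0 := by
        apply lamC_separate M hES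
        intro i x
        have h1 := hv i x
        rw [← hrepr, ← repr_act] at h1
        rw [← h1, dotProduct]
        conv_lhs => rw [← (parBasis M ℂ).sum_repr (actParG (gens M ∅) ℂ ℂ x w)]
        rw [map_sum]
        refine Finset.sum_congr rfl fun j _ => ?_
        rw [map_smul, smul_eq_mul, mul_comm]
      rw [← hrepr, hw0]
      funext j
      rw [map_zero]
      rfl)
  refine ⟨mu, fun R _ _ _ _ v hv => ?_⟩
  have h1 := hmu R (fun j => (parBasis M R).repr v j) (fun i x => by
    rw [← repr_act, dotProduct]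
    exact hv i x)
  rw [← (parBasis M R).sum_repr v]
  refine Finset.sum_eq_zero fun j _ => ?_
  rw [congrFun h1 j]
  exact zero_smul _ _

/-- **Rank bound.** -/
theorem finrank_le (hES : ES M) (R : Type) [CommRing R] [IsDomain R] [IsPrincipalIdealRing R]
    [CharZero R] (V : Submodule R (parabolicHoms R (Gamma0 M) R))
    (hV : ∀ (x : FreeAlgebra ℤ (IdxF M (∅ : Set ℕ))), ∀ v ∈ V, actParG (gens M ∅) R R x v ∈ V)
    (A : Submodule R (Module.End R V))
    (hA : ∀ x, ((actParG (gens M ∅) R R x).restrict (hV x) : Module.End R V) ∈ A) :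
    Module.finrank R V ≤ 2 * Module.finrank R A := by
  classical
  have : IsAddTorsionFree R := inferInstance
  obtain ⟨mu, hmu⟩ := exists_functionals M hES
  have hfree : Module.Free R (parabolicHoms R (Gamma0 M) R) := Module.Free.of_basis (parBasis M R)
  have hfin : Module.Finite R (parabolicHoms R (Gamma0 M) R) := Module.Finite.of_basis (parBasis M R)
  have hVfin : Module.Finite R V := inferInstance
  have hVfree : Module.Free R V := Module.Free.of_basis (Submodule.basisOfPid (parBasis M R) V).2
  let lam : Fin 2 → (parabolicHoms R (Gamma0 M) R →ₗ[R] R) := fun i =>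
    ∑ j, (mu i j : R) • (parBasis M R).coord j
  have hlam : ∀ i v, lam i v = ∑ j, (mu i j : R) * (parBasis M R).repr v j := by
    intro i v
    simp only [lam, LinearMap.sum_apply, LinearMap.smul_apply, Module.Basis.coord_apply,
      smul_eq_mul]
  refine finrank_le_generic (V := V) A (fun i => (lam i).comp V.subtype) fun v hv => ?_
  apply Subtype.ext
  apply hmu R
  intro i x
  rw [← hlam]
  exact hv i _ (hA x)

end Fermat.Agent.ZRank
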