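import Mathlib

set_option autoImplicit false

/-!
Generic functionals: a pair of complex functionals separating vectors under a family of integral
matrices can be replaced by a pair of integral functionals.
-/

namespace Fermat.Agent.ZRank

open Matrix

theorem exists_rows {n : ℕ} {I : Type*} (l : I → Fin n → ℂ)
    (h : ∀ v : Fin n → ℂ, (∀ i, l i ⬝ᵥ v = 0) → v = 0) :
    ∃ e : Fin n → I, (Matrix.of fun k => l (e k)).det ≠ 0 := by
  classical
  have hspan : Submodule.span ℂ (Set.range l) = ⊤ := by
    by_contra hne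
    obtain ⟨f, hf0, hf⟩ := Submodule.exists_le_ker_of_lt_top _ (lt_top_iff_ne_top.mpr hne)
    -- `f` is the dot product with a vector
    have hv : ∀ w : Fin n → ℂ, f w = w ⬝ᵥ (fun j => f (Pi.single j 1)) := by
      intro w
      have hw : w = ∑ j, w j • (Pi.single j (1 : ℂ) : Fin n → ℂ) := by
        funext k
        rw [Finset.sum_apply]
        simp [Pi.single_apply]
      conv_lhs => rw [hw]
      rw [map_sum, dotProduct]
      refine Finset.sum_congr rfl fun j _ => ?_
      rw [map_smul, smul_eq_mul]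
    have h0 : (fun j => f (Pi.single j 1)) = 0 := by
      apply h
      intro i
      rw [← hv]
      exact hf (Submodule.subset_span ⟨i, rfl⟩)
    apply hf0
    ext w
    simp only [LinearMap.coe_comp, LinearMap.coe_single, Function.comp_apply]
    exact congrFun h0 w
  obtain ⟨b, hbS, hbspan, hbli⟩ := exists_linearIndependent ℂ (Set.range l)
  have hbase : Submodule.span ℂ (Set.range (Subtype.val : b → Fin n → ℂ)) = ⊤ := by
    rw [Subtype.range_coe, hbspan, hspan]
  let B : Module.Basis b ℂ (Fin n → ℂ) := Module.Basis.mk hbli hbase.ge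
  have hfin : Finite b := Module.Finite.finite_basis B
  have : Fintype b := Fintype.ofFinite b
  have hcard : Fintype.card b = n := by
    rw [← Module.finrank_eq_card_basis B, Module.finrank_fin_fun]
  let σ : Fin n ≃ b := (Fintype.equivFinOfCardEq hcard).symm
  have hrange : ∀ k : Fin n, ∃ i : I, l i = (σ k : Fin n → ℂ) := fun k => hbS (σ k).2
  choose e he using hrange
  refine ⟨e, ?_⟩
  have hli : LinearIndependent ℂ (fun k => l (e k)) := by
    have h1 : (fun k => l (e k)) = (Subtype.val : b → Fin n → ℂ) ∘ σ := by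
      funext k
      exact he k
    rw [h1]
    exact hbli.comp _ σ.injective
  have h2 := (Matrix.linearIndependent_rows_iff_isUnit (A := Matrix.of fun k => l (e k))).mp hli
  exact ((Matrix.isUnit_iff_isUnit_det _).mp h2).ne_zero

theorem exists_int_functionals {n : ℕ} {X : Type*} (T : X → Matrix (Fin n) (Fin n) ℤ)
    (lam : Fin 2 → Fin n → ℂ)
    (h : ∀ v : Fin n → ℂ,
      (∀ i x, lam i ⬝ᵥ (((T x).map (Int.cast : ℤ → ℂ)) *ᵥ v) = 0) → v = 0) :
    ∃ mu : Fin 2 → Fin n → ℤ, ∀ (R : Type) [CommRing R] [IsDomain R] [CharZero R] (v : Fin n → R),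
      (∀ i x, (fun j => (mu i j : R)) ⬝ᵥ (((T x).map (Int.cast : ℤ → R)) *ᵥ v) = 0) → v = 0 := by
  classical
  obtain ⟨e, he⟩ := exists_rows
    (fun ix : Fin 2 × X => lam ix.1 ᵥ* ((T ix.2).map (Int.cast : ℤ → ℂ))) (fun v hv => by
      apply h
      intro i x
      rw [Matrix.dotProduct_mulVec]
      exact hv (i, x))
  let P : MvPolynomial (Fin 2 × Fin n) ℤ := (Matrix.of fun k j : Fin n =>
    ∑ l, MvPolynomial.X ((e k).1, l) * MvPolynomial.C (T (e k).2 l j)).det
  have hPR : ∀ (R : Type) [CommRing R] (mu : Fin 2 → Fin n → R),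
      MvPolynomial.eval₂ (Int.castRingHom R) (fun il => mu il.1 il.2) P =
        (Matrix.of fun k => mu (e k).1 ᵥ* ((T (e k).2).map (Int.cast : ℤ → R))).det := by
    intro R _ mu
    rw [← MvPolynomial.coe_eval₂Hom, RingHom.map_det]
    congr 1
    ext k j
    rw [RingHom.mapMatrix_apply, Matrix.map_apply, Matrix.of_apply, map_sum]
    simp only [map_mul, MvPolynomial.coe_eval₂Hom, MvPolynomial.eval₂_X, MvPolynomial.eval₂_C,
      Matrix.vecMul, dotProduct, Matrix.of_apply, Matrix.map_apply]
    rfl
  have hP0 : P ≠ 0 := by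
    intro h0
    apply he
    rw [← hPR ℂ lam, h0, MvPolynomial.eval₂_zero]
  obtain ⟨mu, hmu⟩ : ∃ mu : Fin 2 × Fin n → ℤ, MvPolynomial.eval mu P ≠ 0 := by
    by_contra hcon
    push Not at hcon
    exact hP0 (MvPolynomial.funext fun x => by rw [hcon x, map_zero])
  refine ⟨fun i j => mu (i, j), fun R _ _ _ v hv => ?_⟩
  have hdet : (Matrix.of fun k => (fun j => (mu ((e k).1, j) : R)) ᵥ*
      ((T (e k).2).map (Int.cast : ℤ → R))).det ≠ 0 := by
    rw [← hPR R (fun i j => (mu (i, j) : R))]
    have h1 : MvPolynomial.eval₂ (Int.castRingHom R) (fun il : Fin 2 × Fin n => (mu il : R)) P =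
        ((MvPolynomial.eval mu P : ℤ) : R) := by
      have h2 := MvPolynomial.eval₂_comp_left (Int.castRingHom R) (RingHom.id ℤ) mu P
      rw [← MvPolynomial.eval₂_id]
      rw [RingHom.comp_id] at h2
      exact h2.symm
    change MvPolynomial.eval₂ (Int.castRingHom R) (fun il : Fin 2 × Fin n => (mu il : R)) P ≠ 0
    rw [h1]
    exact_mod_cast hmu
  apply Matrix.eq_zero_of_mulVec_eq_zero hdet
  funext k
  have := hv (e k).1 (e k).2
  rw [Matrix.dotProduct_mulVec] at this
  exact this

theorem finrank_le_generic {R V : Type*} [CommRing R] [IsDomain R] [IsPrincipalIdealRing R]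
    [AddCommGroup V] [Module R V] [Module.Free R V] [Module.Finite R V]
    (A : Submodule R (Module.End R V)) (lam : Fin 2 → (V →ₗ[R] R))
    (h : ∀ v, (∀ i, ∀ a ∈ A, lam i (a v) = 0) → v = 0) :
    Module.finrank R V ≤ 2 * Module.finrank R A := by
  have hAfin : Module.Finite R A :=
    Module.Finite.of_basis (Submodule.basisOfPid (Module.finBasis R (Module.End R V)) A).2
  have hAfree : Module.Free R A :=
    Module.Free.of_basis (Submodule.basisOfPid (Module.finBasis R (Module.End R V)) A).2
  let Bf : Fin 2 → (V →ₗ[R] A →ₗ[R] R) := fun i =>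
    LinearMap.mk₂ R (fun v a => lam i ((a : Module.End R V) v))
      (fun v w a => by rw [map_add, map_add])
      (fun c v a => by rw [map_smul, map_smul])
      (fun v a b => by rw [Submodule.coe_add, LinearMap.add_apply, map_add])
      (fun c v a => by rw [Submodule.coe_smul, LinearMap.smul_apply, map_smul])
  let Φ : V →ₗ[R] (Fin 2 → Module.Dual R A) := LinearMap.pi Bf
  have hΦ : ∀ (v : V) (i : Fin 2) (a : A), Φ v i a = lam i ((a : Module.End R V) v) :=
    fun _ _ _ => rfl
  have hinj : Function.Injective Φ := by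
    rw [injective_iff_map_eq_zero]
    intro v hv
    apply h
    intro i a ha
    rw [← hΦ v i ⟨a, ha⟩, hv]
    rfl
  have h1 := LinearMap.finrank_le_finrank_of_injective hinj
  rw [Module.finrank_pi_fintype, Fin.sum_univ_two] at h1
  have h2 : Module.finrank R (Module.Dual R A) = Module.finrank R A := by
    rw [Module.finrank_linearMap, Module.finrank_self, mul_one]
  rw [h2] at h1
  omega

end Fermat.Agent.ZRank
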